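/-
CFT / Ray (architect: helper14): the universal norm index inequality ("second inequality",
analytic proof) for generalized ideal class groups, built on the landed S14 machinery.

A "congruence class map" modulo `m` is a function `Φ` from ideals to a finite abelian group `A`,
multiplicative on ideals prime to `m`, trivial on principal ideals `(ξ)` with `ξ ≡ 1 mod m`
(NO sign conditions: this is what is needed for extensions of odd degree).
-/
import Fermat.Agent.S14.Interface2

set_option autoImplicit false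

namespace Fermat.Agent.CFT.Ray

open NumberField Fermat.Agent.S14

/-- `Φ` is a congruence class map modulo `m` with values in `A`. -/
structure IsClassMap {T : Type} [Field T] [NumberField T] (m : Ideal (𝓞 T)) {A : Type}
    [CommGroup A] (Φ : Ideal (𝓞 T) → A) : Prop where
  mul : ∀ I J : Ideal (𝓞 T), IsCoprime I m → IsCoprime J m → Φ (I * J) = Φ I * Φ J
  princ : ∀ ξ : 𝓞 T, ξ ≠ 0 → ξ - 1 ∈ m → Φ (Ideal.span {ξ}) = 1
  surj : ∀ a : A, ∃ I : Ideal (𝓞 T), I ≠ ⊥ ∧ IsCoprime I m ∧ Φ I = a

/-- Partial zeta function of a fibre of a class map. -/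
noncomputable def zetaRay {T : Type} [Field T] [NumberField T] (m : Ideal (𝓞 T)) {A : Type}
    (Φ : Ideal (𝓞 T) → A) (a : A) (s : ℝ) : ℝ :=
  ∑' I : {I : Ideal (𝓞 T) // I ≠ ⊥ ∧ IsCoprime I m ∧ Φ I = a}, ((Ideal.absNorm I.1 : ℕ) : ℝ) ^ (-s)

/-- UR1. Differences of the partial zeta functions of the fibres stay bounded as `s → 1⁺`. -/
def Stmt_ZetaRayDiff : Prop :=
  ∀ (T : Type) [Field T] [NumberField T] (m : Ideal (𝓞 T)), m ≠ ⊥ →
    ∀ (A : Type) [CommGroup A] [Finite A] (Φ : Ideal (𝓞 T) → A), IsClassMap m Φ →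
    ∀ a a' : A, ∃ B : ℝ, ∀ s : ℝ, 1 < s → s ≤ 2 → |zetaRay m Φ a s - zetaRay m Φ a' s| ≤ B

/-- UR2. The universal norm index inequality for congruence class maps: if `Φ` kills almost all
primes of `T` having a prime of relative degree one above them in `N`, then `#A ≤ [N : T]`. -/
def Stmt_URay : Prop :=
  ∀ (T N : Type) [Field T] [NumberField T] [Field N] [NumberField N] [Algebra T N]
    (m : Ideal (𝓞 T)), m ≠ ⊥ →
    ∀ (A : Type) [CommGroup A] [Finite A] (Φ : Ideal (𝓞 T) → A), IsClassMap m Φ →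
    ∀ S : Finset (Ideal (𝓞 T)),
    (∀ (q : Ideal (𝓞 T)) (Q : Ideal (𝓞 N)), q.IsPrime → q ≠ ⊥ → q ∉ S → IsCoprime q m →
      Q.IsPrime → Q.LiesOver q → Ideal.absNorm Q = Ideal.absNorm q → Φ q = 1) →
    Nat.card A ≤ Module.finrank T N

end Fermat.Agent.CFT.Ray
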