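/-
CFT / Ray, UR2 (helper50): the universal norm index inequality for congruence class maps.
Adapted from S14/UIneq.lean (helper71): `Cl(T)/Y` is replaced by `A`, and the ideals are
restricted to those prime to `m`.
-/
import Fermat.Agent.CFT.Ray.Interface
import Fermat.Agent.S14.UIneq
import Fermat.Agent.S14.ZetaPole
import Fermat.Agent.S14.EulerIdeal

set_option autoImplicit false

namespace Fermat.Agent.CFT.Ray

open NumberField Fermat.Agent.S14 Fermat.Agent.S14.UIneq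

namespace URay

/-! ### Twisted `L`-series -/

section Lseries

open Classical

variable {T : Type} [Field T] [NumberField T] (m : Ideal (𝓞 T)) {A : Type} [CommGroup A]
  (Φ : Ideal (𝓞 T) → A)

/-- the summand of the `L`-series. -/
noncomputable def fR (ψ : AddChar (Additive A) ℂ) (s : ℝ) (I : Ideal (𝓞 T)) : ℂ :=
  if IsCoprime I m then ψ (Additive.ofMul (Φ I)) * (nrm I s : ℂ) else 0

variable {m Φ}

theorem map_top (hΦ : IsClassMap m Φ) : Φ ⊤ = 1 := by
  have := hΦ.princ 1 one_ne_zero (by simp)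
  rwa [Ideal.span_singleton_one] at this

theorem fR_top (hΦ : IsClassMap m Φ) (ψ : AddChar (Additive A) ℂ) (s : ℝ) :
    fR m Φ ψ s ⊤ = 1 := by
  have h : IsCoprime (⊤ : Ideal (𝓞 T)) m := by
    rw [← Ideal.one_eq_top]; exact isCoprime_one_left
  simp [fR, h, map_top hΦ, nrm_top]

theorem fR_mul (hΦ : IsClassMap m Φ) (ψ : AddChar (Additive A) ℂ) (s : ℝ) (I J : Ideal (𝓞 T)) :
    fR m Φ ψ s (I * J) = fR m Φ ψ s I * fR m Φ ψ s J := by
  unfold fR
  by_cases hI : IsCoprime I m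
  · by_cases hJ : IsCoprime J m
    · rw [if_pos hI, if_pos hJ, if_pos (hI.mul_left hJ), hΦ.mul I J hI hJ, ofMul_mul,
        AddChar.map_add_eq_mul, nrm_mul]
      push_cast
      ring
    · rw [if_neg hJ, if_neg (fun h => hJ (IsCoprime.of_mul_left_right h)), mul_zero]
  · rw [if_neg hI, if_neg (fun h => hI (IsCoprime.of_mul_left_left h)), zero_mul]

variable [Finite A]

theorem norm_fR_le (ψ : AddChar (Additive A) ℂ) (s : ℝ) (I : Ideal (𝓞 T)) :
    ‖fR m Φ ψ s I‖ ≤ nrm I s := by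
  unfold fR
  split_ifs
  · rw [norm_mul, AddChar.norm_apply, one_mul, Complex.norm_real, Real.norm_eq_abs,
      abs_of_nonneg (nrm_nonneg I s)]
  · simpa using nrm_nonneg I s

theorem summable_norm_fR (ψ : AddChar (Additive A) ℂ) {s : ℝ} (hs : 1 < s) :
    Summable (fun I : NZ T => ‖fR m Φ ψ s I.1‖) :=
  Summable.of_nonneg_of_le (fun _ => norm_nonneg _) (fun I => norm_fR_le ψ s I.1)
    (summable_nrm zetaPole hs)

variable (m Φ) in
/-- The `L`-series. -/
noncomputable def LR (ψ : AddChar (Additive A) ℂ) (s : ℝ) : ℂ := ∑' I : NZ T, fR m Φ ψ s I.1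

/-- Euler product, in norm form. -/
theorem euler_norm (hΦ : IsClassMap m Φ) (ψ : AddChar (Additive A) ℂ) {s : ℝ} (hs : 1 < s) :
    Summable (fun q : Pr T => (-Complex.log (1 - fR m Φ ψ s q.1)).re) ∧
    ‖LR m Φ ψ s‖ = Real.exp (∑' q : Pr T, (-Complex.log (1 - fR m Φ ψ s q.1)).re) := by
  obtain ⟨-, h2, h3⟩ := eulerIdeal T (fR m Φ ψ s) (fR_top hΦ ψ s) (fR_mul hΦ ψ s)
    (summable_norm_fR ψ hs)
  refine ⟨(Complex.hasSum_re h2.hasSum).summable, ?_⟩
  unfold LR
  rw [← h3, Complex.norm_exp, Complex.re_tsum h2]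

theorem norm_LR_le (ψ : AddChar (Additive A) ℂ) {s : ℝ} (hs : 1 < s) :
    ‖LR m Φ ψ s‖ ≤ zetaI T s := by
  unfold LR
  refine (norm_tsum_le_tsum_norm (summable_norm_fR ψ hs)).trans ?_
  exact Summable.tsum_le_tsum (fun I => norm_fR_le ψ s I.1) (summable_norm_fR ψ hs)
    (summable_nrm zetaPole hs)

/-- Regrouping the `L`-series by the fibres of `Φ`. -/
theorem LR_eq_sum [Fintype A] (ψ : AddChar (Additive A) ℂ) {s : ℝ} (hs : 1 < s) :
    LR m Φ ψ s = ∑ a : A, ψ (Additive.ofMul a) * (zetaRay m Φ a s : ℂ) := by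
  have hsum : Summable (fun I : NZ T => fR m Φ ψ s I.1) :=
    Summable.of_norm (summable_norm_fR ψ hs)
  let φ : NZ T → Option A := fun I => if IsCoprime I.1 m then some (Φ I.1) else none
  have h1 := hsum.hasSum.tsum_fiberwise φ
  have h2 := h1.unique (hasSum_fintype _)
  unfold LR
  rw [h2, Fintype.sum_option]
  have h0 : ∑' b : (φ ⁻¹' {none}), fR m Φ ψ s b.1.1 = 0 := by
    rw [← tsum_zero (α := ℂ) (β := (φ ⁻¹' {none}))]
    refine tsum_congr fun b => ?_
    have hb : φ b.1 = none := b.2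
    have hc : ¬ IsCoprime b.1.1 m := by
      intro hc
      simp [φ, hc] at hb
    simp [fR, hc]
  rw [h0, zero_add]
  refine Finset.sum_congr rfl fun a _ => ?_
  let e : (φ ⁻¹' {some a}) ≃ {I : Ideal (𝓞 T) // I ≠ ⊥ ∧ IsCoprime I m ∧ Φ I = a} :=
    { toFun := fun b => ⟨b.1.1, b.1.2, by
        have hb : φ b.1 = some a := b.2
        by_cases hc : IsCoprime b.1.1 m
        · simp only [φ, if_pos hc, Option.some.injEq] at hb
          exact ⟨hc, hb⟩
        · simp [φ, hc] at hb⟩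
      invFun := fun I => ⟨⟨I.1, I.2.1⟩, by
        change φ ⟨I.1, I.2.1⟩ = some a
        simp [φ, I.2.2.1, I.2.2.2]⟩
      left_inv := fun _ => rfl
      right_inv := fun _ => rfl }
  unfold zetaRay
  rw [Complex.ofReal_tsum, ← tsum_mul_left, ← e.tsum_eq]
  refine tsum_congr fun b => ?_
  have hb := (e b).2
  have hb1 : IsCoprime b.1.1 m := hb.2.1
  have hb2 : Φ b.1.1 = a := hb.2.2
  simp only [fR, if_pos hb1, hb2, nrm, e, Equiv.coe_fn_mk]

theorem norm_LR_le_of_ne [Fintype A] {ψ : AddChar (Additive A) ℂ} (hψ : ψ ≠ 0) {s : ℝ}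
    (hs : 1 < s) :
    ‖LR m Φ ψ s‖ ≤ ∑ a : A, |zetaRay m Φ a s - zetaRay m Φ 1 s| := by
  have ha0 : ∑ a : A, ψ (Additive.ofMul a) = 0 := by
    rw [← AddChar.sum_eq_zero_iff_ne_zero.mpr hψ]
    exact Fintype.sum_equiv Additive.ofMul _ _ (fun C => rfl)
  have h1 : LR m Φ ψ s = ∑ a : A,
      ψ (Additive.ofMul a) * ((zetaRay m Φ a s - zetaRay m Φ 1 s : ℝ) : ℂ) := by
    rw [LR_eq_sum ψ hs]
    push_cast
    simp_rw [mul_sub]
    rw [Finset.sum_sub_distrib, ← Finset.sum_mul, ha0, zero_mul, sub_zero]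
  rw [h1]
  refine (norm_sum_le _ _).trans (Finset.sum_le_sum fun C _ => ?_)
  rw [norm_mul, AddChar.norm_apply, one_mul, Complex.norm_real, Real.norm_eq_abs]

end Lseries

/-! ### The prime sum -/

section chars

open Classical

variable {T : Type} [Field T] [NumberField T]

/-- The prime sum over the primes satisfying `P`. -/
noncomputable def PP (P : Ideal (𝓞 T) → Prop) (s : ℝ) : ℝ :=
  ∑' q : Pr T, (if P q.1 then nrm q.1 s else 0)

theorem ite_nonneg (P : Ideal (𝓞 T) → Prop) (s : ℝ) (q : Ideal (𝓞 T)) :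
    (0 : ℝ) ≤ (if P q then nrm q s else 0) := by
  split_ifs
  · exact nrm_nonneg _ _
  · exact le_rfl

theorem summable_PP (P : Ideal (𝓞 T) → Prop) {s : ℝ} (hs : 1 < s) :
    Summable (fun q : Pr T => (if P q.1 then nrm q.1 s else 0)) := by
  refine Summable.of_nonneg_of_le (fun q => ite_nonneg P s q.1) (fun q => ?_)
    (summable_nrm_prime (T := T) zetaPole hs)
  split_ifs
  · exact le_rfl
  · exact nrm_nonneg _ _

variable {m : Ideal (𝓞 T)} {A : Type} [CommGroup A] [Fintype A] {Φ : Ideal (𝓞 T) → A}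

theorem main1 (hΦ : IsClassMap m Φ) {s : ℝ} (hs : 1 < s) :
    Real.exp ((Fintype.card (Additive A) : ℝ) * PP (fun q => IsCoprime q m ∧ Φ q = 1) s) ≤
      ∏ ψ : AddChar (Additive A) ℂ, ‖LR m Φ ψ s‖ := by
  have hEu := fun ψ : AddChar (Additive A) ℂ => euler_norm hΦ ψ hs
  simp_rw [fun ψ => (hEu ψ).2]
  rw [← Real.exp_sum, ← Summable.tsum_finsetSum (fun ψ _ => (hEu ψ).1)]
  apply Real.exp_le_exp.mpr
  unfold PP
  rw [← tsum_mul_left]
  refine Summable.tsum_le_tsum (fun q => ?_)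
    ((summable_PP (fun q => IsCoprime q m ∧ Φ q = 1) hs).mul_left _)
    (summable_sum fun ψ _ => (hEu ψ).1)
  by_cases hc : IsCoprime q.1 m
  · have hx0 := nrm_nonneg q.1 s
    have hx1 : nrm q.1 s < 1 :=
      lt_of_le_of_lt (nrm_prime_le_half q.2.1 q.2.2 hs.le) (by norm_num)
    have h := re_sum_neg_log (Additive.ofMul (Φ q.1)) (nrm q.1 s) hx0 hx1
    rw [Complex.re_sum] at h
    have hiff : (Additive.ofMul (Φ q.1) = 0) ↔ (IsCoprime q.1 m ∧ Φ q.1 = 1) := by
      constructor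
      · intro h
        exact ⟨hc, h⟩
      · intro h
        exact h.2
    simp only [fR, if_pos hc]
    refine le_trans (le_of_eq ?_) h
    simp only [hiff]
    split_ifs <;> simp
  · simp [fR, hc]

theorem main2 (hD : Stmt_ZetaRayDiff) (hm : m ≠ ⊥) (hΦ : IsClassMap m Φ) :
    ∃ C : ℝ, ∀ s : ℝ, 1 < s → s ≤ 2 →
      (Fintype.card (Additive A) : ℝ) * PP (fun q => IsCoprime q m ∧ Φ q = 1) s ≤
        Real.log (zetaI T s) + C := by
  choose B hB using fun a : A => hD T m hm A Φ hΦ a 1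
  set B1 : ℝ := max (∑ a, B a) 1 with hB1
  have hB1pos : 0 < B1 := lt_of_lt_of_le one_pos (le_max_right _ _)
  set k : ℕ := ((Finset.univ : Finset (AddChar (Additive A) ℂ)).erase 0).card
  refine ⟨Real.log (B1 ^ k), fun s hs hs2 => ?_⟩
  have h1 := main1 hΦ hs
  have hz : 1 ≤ zetaI T s := one_le_zetaI zetaPole hs
  have h2 : ∏ ψ : AddChar (Additive A) ℂ, ‖LR m Φ ψ s‖ ≤ zetaI T s * B1 ^ k := by
    rw [← Finset.mul_prod_erase Finset.univ _ (Finset.mem_univ (0 : AddChar _ ℂ))]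
    refine mul_le_mul (norm_LR_le 0 hs) ?_ (Finset.prod_nonneg fun ψ _ => norm_nonneg _)
      (by linarith)
    rw [← Finset.prod_const]
    refine Finset.prod_le_prod (fun ψ _ => norm_nonneg _) (fun ψ hψ => ?_)
    have hψ0 : ψ ≠ 0 := (Finset.mem_erase.mp hψ).1
    refine (norm_LR_le_of_ne hψ0 hs).trans ?_
    exact (Finset.sum_le_sum fun a _ => hB a s hs hs2).trans (le_max_left _ _)
  have h3 := h1.trans h2
  have h4 := Real.log_le_log (Real.exp_pos _) h3
  rw [Real.log_exp, Real.log_mul (by linarith) (by positivity)] at h4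
  exact h4

end chars

/-! ### Comparison of the primes of `N` and of `T` -/

section compare

open Classical

variable {T N : Type} [Field T] [NumberField T] [Field N] [NumberField N] [Algebra T N]

theorem nrm_le_of_below (P : Ideal (𝓞 T) → Prop) (S : Finset (Ideal (𝓞 T)))
    (hyp : ∀ (q : Ideal (𝓞 T)) (Q : Ideal (𝓞 N)), q.IsPrime → q ≠ ⊥ → q ∉ S → Q.IsPrime →
      Q.LiesOver q → Ideal.absNorm Q = Ideal.absNorm q → P q)
    {s : ℝ} (hs : 1 < s) (Q : Pr N) :
    nrm Q.1 s ≤ (if P (below (T := T) Q).1 then nrm (below (T := T) Q).1 s else 0) +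
      (if (below (T := T) Q).1 ∈ S then 1 else 0) + nrm (below (T := T) Q).1 2 := by
  set q := below (T := T) Q with hq
  have hlo : Q.1.LiesOver q.1 := Ideal.over_under Q.1
  have : q.1.IsMaximal := q.2.1.isMaximal q.2.2
  have hN := Ideal.absNorm_eq_pow_inertiaDeg'_of_liesOver Q.1 q.1 q.2.1 q.2.2
  have hf0 := Ideal.inertiaDeg'_ne_zero q.1 Q.1
  have hn2 := nrm_nonneg q.1 2
  have h1 : (0 : ℝ) ≤ (if P q.1 then nrm q.1 s else 0) := ite_nonneg P s q.1
  by_cases hf1 : q.1.inertiaDeg' Q.1 = 1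
  · rw [hf1, pow_one] at hN
    by_cases hS : q.1 ∈ S
    · rw [if_pos hS]
      have h1 := nrm_le_one Q.2.2 (by linarith : (0 : ℝ) ≤ s)
      linarith
    · rw [if_pos (hyp q.1 Q.1 q.2.1 q.2.2 hS Q.2.1 hlo hN), if_neg hS]
      have : nrm Q.1 s = nrm q.1 s := by unfold nrm; rw [hN]
      linarith
  · have hf2 : 2 ≤ q.1.inertiaDeg' Q.1 := by omega
    have h2 : (0 : ℝ) ≤ (if q.1 ∈ S then 1 else 0) := by
      split_ifs <;> norm_num
    have h3 : nrm Q.1 s ≤ nrm q.1 2 := by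
      refine (nrm_anti Q.2.2 hs.le).trans ?_
      unfold nrm
      rw [hN, Real.rpow_neg (Nat.cast_nonneg _), Real.rpow_neg (Nat.cast_nonneg _), Real.rpow_one,
        Real.rpow_two]
      have hq1 : (1 : ℝ) ≤ (Ideal.absNorm q.1 : ℕ) := by exact_mod_cast one_le_absNorm q.2.2
      apply inv_anti₀ (by positivity)
      push_cast
      exact pow_le_pow_right₀ hq1 hf2
    linarith

theorem main3 (P : Ideal (𝓞 T) → Prop) (S : Finset (Ideal (𝓞 T)))
    (hyp : ∀ (q : Ideal (𝓞 T)) (Q : Ideal (𝓞 N)), q.IsPrime → q ≠ ⊥ → q ∉ S → Q.IsPrime →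
      Q.LiesOver q → Ideal.absNorm Q = Ideal.absNorm q → P q)
    {s : ℝ} (hs : 1 < s) :
    Real.log (zetaI N s) ≤ (Module.finrank T N : ℝ) * PP P s +
      ((Module.finrank T N : ℝ) * (S.card + zetaI T 2) + 2 * zetaI N 2) := by
  refine (log_zetaI_le zetaPole eulerIdeal hs).trans ?_
  have hsS : Summable (fun q : Pr T => (if q.1 ∈ S then (1 : ℝ) else 0)) ∧
      ∑' q : Pr T, (if q.1 ∈ S then (1 : ℝ) else 0) ≤ S.card := by
    have h := tsum_comp_le (fun q : Pr T => q.1) 1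
      (fun b u hu => Finset.card_le_one.mpr fun a ha a' ha' =>
        Subtype.ext ((hu a ha).trans (hu a' ha').symm))
      (fun I : Ideal (𝓞 T) => if I ∈ S then (1 : ℝ) else 0)
      (fun I => by split_ifs <;> norm_num)
      (summable_of_ne_finset_zero (s := S) fun I hI => if_neg hI)
    refine ⟨h.1, h.2.trans ?_⟩
    rw [tsum_eq_sum (s := S) fun I hI => if_neg hI]
    rw [Finset.sum_congr rfl fun I hI => if_pos hI]
    simp
  have hs2 : Summable (fun q : Pr T => nrm q.1 2) := summable_nrm_prime zetaPole (by norm_num)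
  have hsY := summable_PP P hs
  set h : Pr T → ℝ := fun q => (if P q.1 then nrm q.1 s else 0) +
      (if q.1 ∈ S then 1 else 0) + nrm q.1 2 with hh
  have hsum : Summable h := (hsY.add hsS.1).add hs2
  have h0 : ∀ q, 0 ≤ h q := by
    intro q
    have h1 : (0 : ℝ) ≤ (if P q.1 then nrm q.1 s else 0) := ite_nonneg P s q.1
    have h2 : (0 : ℝ) ≤ (if q.1 ∈ S then 1 else 0) := by
      split_ifs <;> norm_num
    have := nrm_nonneg q.1 2
    simp only [hh]
    linarith
  obtain ⟨k1, k2⟩ := tsum_comp_le (below (T := T) (N := N)) (Module.finrank T N)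
    card_fibre_le h h0 hsum
  have k3 : ∑' Q : Pr N, nrm Q.1 s ≤ ∑' Q : Pr N, h (below Q) :=
    Summable.tsum_le_tsum (nrm_le_of_below P S hyp hs) (summable_nrm_prime zetaPole hs) k1
  have k4 : ∑' q, h q = PP P s + ∑' q : Pr T, (if q.1 ∈ S then (1 : ℝ) else 0) +
      ∑' q : Pr T, nrm q.1 2 := by
    simp only [hh]
    rw [(hsY.add hsS.1).tsum_add hs2, hsY.tsum_add hsS.1]
    rfl
  have k5 := tsum_nrm_prime_le (T := T) zetaPole (by norm_num : (1 : ℝ) < 2)
  have k6 : (Module.finrank T N : ℝ) * ∑' q, h q ≤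
      (Module.finrank T N : ℝ) * (PP P s + S.card + zetaI T 2) := by
    refine mul_le_mul_of_nonneg_left ?_ (Nat.cast_nonneg _)
    rw [k4]
    linarith [hsS.2]
  nlinarith [k2, k3, k6]

end compare

end URay

open URay Filter Topology Classical in
/-- UR2: the universal norm index inequality for congruence class maps. -/
theorem uRay (hD : Stmt_ZetaRayDiff) : Stmt_URay := by
  intro T N _ _ _ _ _ 𝔪 h𝔪 A _ _ Φ hΦ S₀ hyp₀
  have : Fintype A := Fintype.ofFinite A
  -- enlarge `S` by the primes dividing `𝔪`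
  set S : Finset (Ideal (𝓞 T)) := S₀ ∪ (UniqueFactorizationMonoid.normalizedFactors 𝔪).toFinset
    with hS
  have hyp : ∀ (q : Ideal (𝓞 T)) (Q : Ideal (𝓞 N)), q.IsPrime → q ≠ ⊥ → q ∉ S → Q.IsPrime →
      Q.LiesOver q → Ideal.absNorm Q = Ideal.absNorm q → (IsCoprime q 𝔪 ∧ Φ q = 1) := by
    intro q Q hq hq0 hqS hQ hlo hN
    rw [hS, Finset.mem_union, not_or, Multiset.mem_toFinset,
      Ideal.mem_normalizedFactors_iff h𝔪] at hqS
    have hc : IsCoprime q 𝔪 := by
      rw [Ideal.isCoprime_iff_sup_eq]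
      have : q.IsMaximal := hq.isMaximal hq0
      by_contra hne
      have h1 : q ⊔ 𝔪 = q := by
        rcases (Ideal.IsMaximal.eq_of_le ‹q.IsMaximal› hne le_sup_left) with h
        exact h.symm
      exact hqS.2 ⟨hq, by rw [← h1]; exact le_sup_right⟩
    exact ⟨hc, hyp₀ q Q hq hq0 hqS.1 hc hQ hlo hN⟩
  by_contra hlt
  push Not at hlt
  have hm : (Fintype.card (Additive A)) = Nat.card A := by
    rw [← Nat.card_eq_fintype_card]
    exact Nat.card_congr Additive.toMul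
  set P : Ideal (𝓞 T) → Prop := fun q => IsCoprime q 𝔪 ∧ Φ q = 1 with hP
  set m : ℕ := Fintype.card (Additive A) with hmdef
  set n : ℕ := Module.finrank T N with hn
  rw [← hm] at hlt
  obtain ⟨C2, hC2⟩ := main2 hD h𝔪 hΦ
  set C1 : ℝ := (n : ℝ) * (S.card + zetaI T 2) + 2 * zetaI N 2 with hC1
  obtain ⟨κT, hκT, hT⟩ := (zetaPole T).2
  obtain ⟨κN, hκN, hN⟩ := (zetaPole N).2
  have hTl := (Real.continuousAt_log hκT.ne').tendsto.comp hT
  have hNl := (Real.continuousAt_log hκN.ne').tendsto.comp hN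
  have hsub : Tendsto (fun s : ℝ => s - 1) (𝓝[>] 1) (𝓝[>] 0) := by
    refine tendsto_nhdsWithin_of_tendsto_nhds_of_eventually_within _ ?_ ?_
    · have : Tendsto (fun s : ℝ => s - 1) (𝓝 1) (𝓝 (1 - 1)) := tendsto_id.sub_const 1
      rw [sub_self] at this
      exact this.mono_left nhdsWithin_le_nhds
    · filter_upwards [self_mem_nhdsWithin] with s hs
      exact Set.mem_Ioi.mpr (sub_pos.mpr (Set.mem_Ioi.mp hs))
  have hlog : Tendsto (fun s : ℝ => Real.log (s - 1)) (𝓝[>] 1) atBot :=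
    Real.tendsto_log_nhdsGT_zero.comp hsub
  have hmn : (0 : ℝ) < (m : ℝ) - n := by
    have : (n : ℝ) < m := by exact_mod_cast hlt
    linarith
  have h1 : Tendsto (fun s : ℝ => ((m : ℝ) - n) * (-Real.log (s - 1))) (𝓝[>] 1) atTop :=
    (tendsto_neg_atBot_atTop.comp hlog).const_mul_atTop hmn
  have h2 : Tendsto (fun s : ℝ => (m : ℝ) * Real.log ((s - 1) * zetaI N s) -
      (n : ℝ) * Real.log ((s - 1) * zetaI T s)) (𝓝[>] 1)
      (𝓝 ((m : ℝ) * Real.log κN - (n : ℝ) * Real.log κT)) :=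
    (hNl.const_mul _).sub (hTl.const_mul _)
  have h3 := h1.atTop_add h2
  have h4 : ∀ᶠ s : ℝ in 𝓝[>] 1, ((m : ℝ) - n) * (-Real.log (s - 1)) +
      ((m : ℝ) * Real.log ((s - 1) * zetaI N s) - (n : ℝ) * Real.log ((s - 1) * zetaI T s)) ≤
      (n : ℝ) * C2 + m * C1 := by
    filter_upwards [Ioc_mem_nhdsGT (one_lt_two : (1 : ℝ) < 2)] with s hs
    have hs1 : 1 < s := hs.1
    have hs0 : 0 < s - 1 := sub_pos.mpr hs1
    have hzT : 0 < zetaI T s := lt_of_lt_of_le one_pos (one_le_zetaI zetaPole hs1)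
    have hzN : 0 < zetaI N s := lt_of_lt_of_le one_pos (one_le_zetaI zetaPole hs1)
    rw [Real.log_mul hs0.ne' hzT.ne', Real.log_mul hs0.ne' hzN.ne']
    have e1 : (m : ℝ) * PP P s ≤ Real.log (zetaI T s) + C2 := hC2 s hs1 hs.2
    have e2 : Real.log (zetaI N s) ≤ (n : ℝ) * PP P s + C1 := main3 P S hyp hs1
    have e3 : (m : ℝ) * Real.log (zetaI N s) ≤ m * ((n : ℝ) * PP P s + C1) :=
      mul_le_mul_of_nonneg_left e2 (Nat.cast_nonneg _)
    have e4 : (n : ℝ) * ((m : ℝ) * PP P s) ≤ n * (Real.log (zetaI T s) + C2) :=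
      mul_le_mul_of_nonneg_left e1 (Nat.cast_nonneg _)
    nlinarith [e3, e4]
  have h5 := (tendsto_atTop.mp h3 ((n : ℝ) * C2 + m * C1 + 1)).and h4
  obtain ⟨s, hs1, hs2⟩ := h5.exists
  linarith

end Fermat.Agent.CFT.Ray
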