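/-
CFT / Ray, package UR1 (helper17): differences of the partial zeta functions of the fibres of a
congruence class map stay bounded as `s → 1⁺`.
-/
import Fermat.Agent.CFT.Ray.Interface
import Fermat.Agent.S14.ZetaPole
import Fermat.Agent.S14.Unfold
import Fermat.Agent.S14.Shift
import Fermat.Agent.S14.GsBound
import Fermat.Agent.S14.ZetaCDiff
import Fermat.Agent.S14.Moving

set_option autoImplicit false
set_option linter.unusedSectionVars false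

namespace Fermat.Agent.CFT.Ray

open NumberField NumberField.mixedEmbedding NumberField.Units Fermat.Agent.S14

namespace ZRD

variable {T : Type} [Field T] [NumberField T]

/-! ### Generalised unfolding -/

/-- Unfolding over the unit group, restricted to a condition `P` on the elements of `b` which
corresponds to a condition `Q` on ideals. -/
theorem unfoldP (b : Ideal (𝓞 T)) (hb : b ≠ ⊥) (P : 𝓞 T → Prop) (Q : Ideal (𝓞 T) → Prop)
    (hPQ : ∀ (I : Ideal (𝓞 T)) (ξ : 𝓞 T), I ≠ ⊥ → Ideal.span {ξ} = I * b → (P ξ ↔ Q I))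
    (s : ℝ) (hs : 1 < s) :
    Summable (Set.indicator {ξ : b | P ξ} fun ξ : b => Gs T s (mixedEmbedding T (ξ : 𝓞 T))) ∧
    ∑' ξ : b, Set.indicator {ξ : b | P ξ} (fun ξ : b => Gs T s (mixedEmbedding T (ξ : 𝓞 T))) ξ =
      (Units.torsionOrder T : ℝ) * ((Ideal.absNorm b : ℕ) : ℝ) ^ (-s) *
        ∑' I : {I : Ideal (𝓞 T) // I ≠ ⊥ ∧ cls I = (cls b)⁻¹ ∧ Q I},
          ((Ideal.absNorm I.1 : ℕ) : ℝ) ^ (-s) := by
  classical
  have hgen : ∀ a : {I : Ideal (𝓞 T) // I ≠ ⊥ ∧ cls I = (cls b)⁻¹ ∧ Q I},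
      ∃ ξ : 𝓞 T, ξ ≠ 0 ∧ Ideal.span {ξ} = a.1 * b := fun a => unf_exists_gen a.2.1 hb a.2.2.1
  choose g hg0 hg using hgen
  have hgb : ∀ (a : {I : Ideal (𝓞 T) // I ≠ ⊥ ∧ cls I = (cls b)⁻¹ ∧ Q I}) (u : (𝓞 T)ˣ),
      (u : 𝓞 T) * g a ∈ b := by
    intro a u
    apply b.mul_mem_left
    have h1 : g a ∈ Ideal.span {g a} := Ideal.mem_span_singleton_self _
    rw [hg a] at h1
    have h2 : a.1 * b ≤ b := Ideal.mul_le_right
    exact h2 h1
  let Φ : {I : Ideal (𝓞 T) // I ≠ ⊥ ∧ cls I = (cls b)⁻¹ ∧ Q I} × (𝓞 T)ˣ → b :=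
    fun p => ⟨(p.2 : 𝓞 T) * g p.1, hgb p.1 p.2⟩
  have hΦinj : Function.Injective Φ := by
    rintro ⟨a, u⟩ ⟨a', u'⟩ h
    have h1 : (u : 𝓞 T) * g a = (u' : 𝓞 T) * g a' := congrArg Subtype.val h
    have h2 : Ideal.span {g a} = Ideal.span {g a'} := by
      rw [Ideal.span_singleton_eq_span_singleton]
      refine ⟨u'⁻¹ * u, ?_⟩
      rw [Units.val_mul, mul_comm, mul_assoc, h1, ← mul_assoc, Units.inv_mul, one_mul]
    have h3 : a = a' := by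
      apply Subtype.ext
      rw [hg, hg] at h2
      exact mul_right_cancel₀ hb h2
    subst h3
    have h4 : u = u' := Units.ext (mul_right_cancel₀ (hg0 a) h1)
    rw [h4]
  let G₀ : b → ℝ := fun ξ => Gs T s (mixedEmbedding T (ξ : 𝓞 T))
  let G : b → ℝ := Set.indicator {ξ : b | P ξ} G₀
  have hsupp : Function.support G ⊆ Set.range Φ := by
    intro ξ hξ
    have hPξ : P ξ := by
      by_contra hP
      exact hξ (Set.indicator_of_notMem (show ξ ∉ {ξ : b | P ξ} from hP) _)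
    have hξ' : G₀ ξ ≠ 0 := by
      intro h0
      apply hξ
      simp only [G]
      rw [Set.indicator_of_mem (show ξ ∈ {ξ : b | P ξ} from hPξ), h0]
    have hξ0 : (ξ : 𝓞 T) ≠ 0 := by
      intro h0
      apply hξ'
      simp only [G₀, h0, Gs]
      have h00 : ((0 : 𝓞 T) : T) = 0 := map_zero (algebraMap (𝓞 T) T)
      rw [h00, map_zero, map_zero, Real.zero_rpow (by linarith), mul_zero]
    obtain ⟨a, ha0, hacl, haspan⟩ := unf_exists_ideal hb ξ.2 hξ0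
    have hQa : Q a := (hPQ a ξ ha0 haspan).1 hPξ
    have h1 : Ideal.span {(ξ : 𝓞 T)} = Ideal.span {g ⟨a, ha0, hacl, hQa⟩} := by rw [haspan, hg]
    rw [Ideal.span_singleton_eq_span_singleton] at h1
    obtain ⟨u, hu⟩ := h1.symm
    exact ⟨(⟨a, ha0, hacl, hQa⟩, u), Subtype.ext (by simp only [Φ]; rw [← hu, mul_comm])⟩
  have hPΦ : ∀ p, P (Φ p : 𝓞 T) := by
    rintro ⟨a, u⟩
    refine (hPQ a.1 _ a.2.1 ?_).2 a.2.2.2
    rw [← hg a]
    simp only [Φ]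
    rw [Ideal.span_singleton_eq_span_singleton]
    exact ⟨u⁻¹, by rw [mul_comm, ← mul_assoc, Units.inv_mul, one_mul]⟩
  -- the value on an orbit
  have hval : ∀ p, G (Φ p) = hatW T (p.2 • mixedEmbedding T (g p.1 : T)) *
      (((Ideal.absNorm p.1.1 : ℕ) : ℝ) ^ (-s) * ((Ideal.absNorm b : ℕ) : ℝ) ^ (-s)) := by
    rintro ⟨a, u⟩
    have h1 : mixedEmbedding T (((u : 𝓞 T) * g a : 𝓞 T) : T) = u • mixedEmbedding T (g a : T) :=
      (unit_smul_eq_iff_mul_eq.mpr rfl).symm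
    simp only [G]
    rw [Set.indicator_of_mem (show Φ (a, u) ∈ {ξ : b | P ξ} from hPΦ (a, u))]
    simp only [G₀, Φ, Gs]
    rw [h1, norm_unit_smul, unf_norm_mixedEmbedding, hg, map_mul, Nat.cast_mul,
      Real.mul_rpow (Nat.cast_nonneg _) (Nat.cast_nonneg _)]
  have hnorm : ∀ a, mixedEmbedding.norm (mixedEmbedding T (g a : T)) ≠ 0 := by
    intro a
    rw [norm_eq_norm]
    simp only [ne_eq, Rat.cast_eq_zero, abs_eq_zero, Algebra.norm_eq_zero_iff]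
    exact_mod_cast hg0 a
  have horbit : ∀ a, HasSum (fun u => G (Φ (a, u))) ((torsionOrder T : ℝ) *
      (((Ideal.absNorm a.1 : ℕ) : ℝ) ^ (-s) * ((Ideal.absNorm b : ℕ) : ℝ) ^ (-s))) := by
    intro a
    simp only [hval]
    exact (unf_hasSum_hatW_unit_smul T _ (hnorm a)).mul_right _
  have hnonneg : 0 ≤ G ∘ Φ := by
    intro p
    simp only [Function.comp_apply, Pi.zero_apply, hval]
    have := unf_hatW_nonneg T (p.2 • mixedEmbedding T (g p.1 : T))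
    positivity
  have hsumA : Summable (fun a : {I : Ideal (𝓞 T) // I ≠ ⊥ ∧ cls I = (cls b)⁻¹ ∧ Q I} =>
      ((Ideal.absNorm a.1 : ℕ) : ℝ) ^ (-s)) := by
    have h1 := (zetaPole T).1 s hs
    let i : {I : Ideal (𝓞 T) // I ≠ ⊥ ∧ cls I = (cls b)⁻¹ ∧ Q I} → {I : Ideal (𝓞 T) // I ≠ ⊥} :=
      fun a => ⟨a.1, a.2.1⟩
    have hi : Function.Injective i := by
      intro a a' h
      have h2 : (i a).1 = (i a').1 := congrArg Subtype.val h
      exact Subtype.ext h2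
    have h3 := h1.comp_injective hi
    exact h3
  have hsumΦ : Summable (G ∘ Φ) := by
    rw [summable_prod_of_nonneg hnonneg]
    refine ⟨fun a => (horbit a).summable, ?_⟩
    have h1 : (fun a => ∑' u, (G ∘ Φ) (a, u)) = fun a => (torsionOrder T : ℝ) *
      (((Ideal.absNorm a.1 : ℕ) : ℝ) ^ (-s) * ((Ideal.absNorm b : ℕ) : ℝ) ^ (-s)) := by
      funext a
      exact (horbit a).tsum_eq
    rw [h1]
    exact (hsumA.mul_right _).mul_left _
  refine ⟨(hΦinj.summable_iff (fun x hx => ?_)).mp hsumΦ, ?_⟩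
  · by_contra h
    exact hx (hsupp h)
  · have h1 : ∑' ξ : b, G ξ = ∑' p, (G ∘ Φ) p := (hΦinj.tsum_eq hsupp).symm
    change ∑' ξ : b, G ξ = _
    rw [h1, hsumΦ.tsum_prod]
    have h2 : ∀ a, ∑' u, (G ∘ Φ) (a, u) = (torsionOrder T : ℝ) *
      (((Ideal.absNorm a.1 : ℕ) : ℝ) ^ (-s) * ((Ideal.absNorm b : ℕ) : ℝ) ^ (-s)) :=
      fun a => (horbit a).tsum_eq
    simp only [h2]
    rw [tsum_mul_left, tsum_mul_right]
    ring

/-! ### Residues modulo `m` -/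

variable {m : Ideal (𝓞 T)} {A : Type} [CommGroup A] {Φ : Ideal (𝓞 T) → A}

theorem exists_inv {ξ : 𝓞 T} (h : IsCoprime (Ideal.span {ξ}) m) :
    ∃ y : 𝓞 T, y ≠ 0 ∧ y * ξ - 1 ∈ m := by
  obtain ⟨i, hi, j, hj, hij⟩ := Ideal.isCoprime_iff_exists.1 h
  obtain ⟨y, rfl⟩ := Ideal.mem_span_singleton'.1 hi
  by_cases hy : y = 0
  · subst hy
    have h1 : (1 : 𝓞 T) ∈ m := by rw [← hij]; simpa using hj
    have htop : m = ⊤ := (Ideal.eq_top_iff_one m).2 h1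
    exact ⟨1, one_ne_zero, by rw [htop]; trivial⟩
  · refine ⟨y, hy, ?_⟩
    have : y * ξ - 1 = -j := by rw [← hij]; ring
    rw [this]
    exact m.neg_mem hj

theorem isCoprime_of_mul_sub_one_mem {y ξ : 𝓞 T} (h : y * ξ - 1 ∈ m) :
    IsCoprime (Ideal.span {ξ}) m := by
  rw [Ideal.isCoprime_iff_exists]
  exact ⟨y * ξ, Ideal.mem_span_singleton'.2 ⟨y, rfl⟩, -(y * ξ - 1), m.neg_mem h, by ring⟩

/-- The residues modulo `m` of the elements `ξ` prime to `m` with `Φ (ξ) = 1`. -/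
def goodRes (m : Ideal (𝓞 T)) (Φ : Ideal (𝓞 T) → A) : Set (𝓞 T ⧸ m) :=
  {x | ∃ ξ : 𝓞 T, ξ ≠ 0 ∧ Ideal.Quotient.mk m ξ = x ∧ IsCoprime (Ideal.span {ξ}) m ∧
    Φ (Ideal.span {ξ}) = 1}

theorem mem_goodRes_iff (hΦ : IsClassMap m Φ) {ξ : 𝓞 T} (hξ : ξ ≠ 0) :
    Ideal.Quotient.mk m ξ ∈ goodRes m Φ ↔
      IsCoprime (Ideal.span {ξ}) m ∧ Φ (Ideal.span {ξ}) = 1 := by
  constructor
  · rintro ⟨ξ', hξ', hmk, hcop, hΦ1⟩
    obtain ⟨y, hy, hyξ'⟩ := exists_inv hcop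
    have hdiff : ξ' - ξ ∈ m := Ideal.Quotient.eq.1 hmk
    have hyξ : y * ξ - 1 ∈ m := by
      have : y * ξ - 1 = (y * ξ' - 1) - y * (ξ' - ξ) := by ring
      rw [this]
      exact m.sub_mem hyξ' (m.mul_mem_left _ hdiff)
    have hcξ := isCoprime_of_mul_sub_one_mem hyξ
    have hcy : IsCoprime (Ideal.span {y}) m :=
      isCoprime_of_mul_sub_one_mem (y := ξ) (by rwa [mul_comm])
    refine ⟨hcξ, ?_⟩
    have e1 := hΦ.princ (y * ξ') (mul_ne_zero hy hξ') hyξ'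
    have e2 := hΦ.princ (y * ξ) (mul_ne_zero hy hξ) hyξ
    rw [← Ideal.span_singleton_mul_span_singleton, hΦ.mul _ _ hcy hcop, hΦ1, mul_one] at e1
    rw [← Ideal.span_singleton_mul_span_singleton, hΦ.mul _ _ hcy hcξ, e1, one_mul] at e2
    exact e2
  · rintro ⟨h1, h2⟩
    exact ⟨ξ, hξ, rfl, h1, h2⟩

theorem exists_lift {b : Ideal (𝓞 T)} (hbm : IsCoprime b m) (x : 𝓞 T ⧸ m) :
    ∃ v ∈ b, Ideal.Quotient.mk m v = x := by
  obtain ⟨i, hi, j, hj, hij⟩ := Ideal.isCoprime_iff_exists.1 hbm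
  obtain ⟨ξ, rfl⟩ := Ideal.Quotient.mk_surjective x
  refine ⟨ξ * i, b.mul_mem_left _ hi, ?_⟩
  rw [Ideal.Quotient.eq]
  have : ξ * i - ξ = -(ξ * j) := by linear_combination ξ * hij
  rw [this]
  exact m.neg_mem (m.mul_mem_left _ hj)

/-- The sum over the elements of `b` in a residue class modulo `m` is a sum over a coset of
`b * m`. -/
theorem tsum_coset {b : Ideal (𝓞 T)} (hbm : IsCoprime b m) (f : 𝓞 T → ℝ) (v : 𝓞 T) (hv : v ∈ b) :
    (Summable (fun η : (b * m : Ideal (𝓞 T)) => f (v + η)) →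
      Summable (Set.indicator {ξ : b | Ideal.Quotient.mk m (ξ : 𝓞 T) = Ideal.Quotient.mk m v}
        (fun ξ : b => f ξ))) ∧
    ∑' ξ : b, Set.indicator {ξ : b | Ideal.Quotient.mk m (ξ : 𝓞 T) = Ideal.Quotient.mk m v}
        (fun ξ : b => f ξ) ξ = ∑' η : (b * m : Ideal (𝓞 T)), f (v + η) := by
  have hle : b * m ≤ b := Ideal.mul_le_left
  have hle' : b * m ≤ m := Ideal.mul_le_right
  let ι : (b * m : Ideal (𝓞 T)) → b := fun η => ⟨v + η, b.add_mem hv (hle η.2)⟩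
  have hι : Function.Injective ι := by
    intro η η' h
    have h1 : v + (η : 𝓞 T) = v + η' := congrArg Subtype.val h
    exact Subtype.ext (add_left_cancel h1)
  let F : b → ℝ := Set.indicator {ξ : b | Ideal.Quotient.mk m (ξ : 𝓞 T) = Ideal.Quotient.mk m v}
        (fun ξ : b => f ξ)
  have hmem : ∀ η, ι η ∈ {ξ : b | Ideal.Quotient.mk m (ξ : 𝓞 T) = Ideal.Quotient.mk m v} := by
    intro η
    change Ideal.Quotient.mk m (v + η : 𝓞 T) = Ideal.Quotient.mk m v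
    rw [Ideal.Quotient.eq]
    simpa using hle' η.2
  have hFι : ∀ η, F (ι η) = f (v + η) := fun η => Set.indicator_of_mem (hmem η) _
  have hsupp : ∀ ξ, ξ ∉ Set.range ι → F ξ = 0 := by
    intro ξ hξ
    apply Set.indicator_of_notMem
    intro hmk
    apply hξ
    have h1 : (ξ : 𝓞 T) - v ∈ m := Ideal.Quotient.eq.1 hmk
    have h2 : (ξ : 𝓞 T) - v ∈ b := b.sub_mem ξ.2 hv
    have h3 : (ξ : 𝓞 T) - v ∈ b * m := by
      rw [Ideal.mul_eq_inf_of_isCoprime hbm]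
      exact ⟨h2, h1⟩
    exact ⟨⟨_, h3⟩, Subtype.ext (by simp [ι])⟩
  constructor
  · intro hs
    refine (hι.summable_iff hsupp).1 ?_
    have : F ∘ ι = fun η : (b * m : Ideal (𝓞 T)) => f (v + η) := funext hFι
    rw [this]
    exact hs
  · have h1 : ∑' η, F (ι η) = ∑' ξ, F ξ := hι.tsum_eq (by
      intro ξ hξ
      by_contra h
      exact hξ (hsupp ξ h))
    rw [← h1]
    exact tsum_congr hFι

/-! ### The main estimate for one lattice -/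

theorem final_arith {w Nb Nm s ζ Zc Z1 E k B' BE : ℝ} (hw : 1 ≤ w) (hNb : 1 ≤ Nb) (hNm : 1 ≤ Nm)
    (hs : 1 < s) (hs2 : s ≤ 2) (hk : 0 ≤ k)
    (h : w * Nb ^ (-s) * ζ = k * (w * (Nb * Nm) ^ (-s) * Zc) + E)
    (hZ : |Zc - Z1| ≤ B') (hE : |E| ≤ BE) :
    |ζ - k * Nm ^ (-s) * Z1| ≤ k * B' + Nb ^ 2 * BE := by
  have hNb0 : 0 < Nb := by linarith
  have hNm0 : 0 < Nm := by linarith
  have hw0 : 0 < w := by linarith
  have hmul : (Nb * Nm) ^ (-s) = Nb ^ (-s) * Nm ^ (-s) := Real.mul_rpow hNb0.le hNm0.le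
  have hinv : Nb ^ (-s) * Nb ^ s = 1 := by rw [← Real.rpow_add hNb0]; simp
  rw [hmul] at h
  have h2 : w * ζ = k * (w * Nm ^ (-s) * Zc) + E * Nb ^ s := by
    calc w * ζ = w * (Nb ^ (-s) * Nb ^ s) * ζ := by rw [hinv]; ring
      _ = (w * Nb ^ (-s) * ζ) * Nb ^ s := by ring
      _ = (k * (w * (Nb ^ (-s) * Nm ^ (-s)) * Zc) + E) * Nb ^ s := by rw [h]
      _ = k * (w * (Nb ^ (-s) * Nb ^ s) * Nm ^ (-s) * Zc) + E * Nb ^ s := by ring
      _ = _ := by rw [hinv]; ring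
  have h3 : ζ - k * Nm ^ (-s) * Z1 = k * Nm ^ (-s) * (Zc - Z1) + E * Nb ^ s / w := by
    field_simp
    linear_combination h2
  have hNm1 : Nm ^ (-s) ≤ 1 := Real.rpow_le_one_of_one_le_of_nonpos hNm (by linarith)
  have hNm2 : 0 ≤ Nm ^ (-s) := (Real.rpow_pos_of_pos hNm0 _).le
  have hNb1 : Nb ^ s ≤ Nb ^ 2 := by
    have := Real.rpow_le_rpow_of_exponent_le hNb hs2
    rwa [Real.rpow_two] at this
  have hNb2 : 0 ≤ Nb ^ s := (Real.rpow_pos_of_pos hNb0 _).le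
  have hB' : 0 ≤ B' := (abs_nonneg _).trans hZ
  have hBE : 0 ≤ BE := (abs_nonneg _).trans hE
  have t1 : |k * Nm ^ (-s) * (Zc - Z1)| ≤ k * B' := by
    rw [abs_mul, abs_mul, abs_of_nonneg hk, abs_of_nonneg hNm2]
    calc k * Nm ^ (-s) * |Zc - Z1| ≤ k * 1 * B' := by gcongr
      _ = k * B' := by ring
  have t2 : |E * Nb ^ s / w| ≤ Nb ^ 2 * BE := by
    rw [abs_div, abs_mul, abs_of_nonneg hNb2, abs_of_pos hw0]
    calc |E| * Nb ^ s / w ≤ |E| * Nb ^ s := div_le_self (by positivity) hw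
      _ ≤ BE * Nb ^ 2 := by gcongr
      _ = Nb ^ 2 * BE := by ring
  rw [h3]
  exact (abs_add_le _ _).trans (add_le_add t1 t2)

theorem one_le_absNorm {I : Ideal (𝓞 T)} (h : I ≠ ⊥) : (1 : ℝ) ≤ ((Ideal.absNorm I : ℕ) : ℝ) := by
  have : Ideal.absNorm I ≠ 0 := by rwa [Ne, Ideal.absNorm_eq_zero_iff]
  exact_mod_cast Nat.one_le_iff_ne_zero.2 this

theorem Gs_zero {s : ℝ} (hs : 1 < s) : Gs T s (mixedEmbedding T (((0 : 𝓞 T)) : T)) = 0 := by
  have h00 : ((0 : 𝓞 T) : T) = 0 := map_zero (algebraMap (𝓞 T) T)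
  simp only [Gs]
  rw [h00, map_zero, map_zero, Real.zero_rpow (by linarith), mul_zero]

theorem main_b (hm : m ≠ ⊥) (hΦ : IsClassMap m Φ) (b : Ideal (𝓞 T)) (hb : b ≠ ⊥)
    (hbm : IsCoprime b m) :
    ∃ B : ℝ, ∀ s : ℝ, 1 < s → s ≤ 2 →
      |∑' I : {I : Ideal (𝓞 T) // I ≠ ⊥ ∧ cls I = (cls b)⁻¹ ∧ (IsCoprime I m ∧ Φ I = (Φ b)⁻¹)},
          ((Ideal.absNorm I.1 : ℕ) : ℝ) ^ (-s)
        - (Nat.card (goodRes m Φ) : ℝ) * ((Ideal.absNorm m : ℕ) : ℝ) ^ (-s) *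
          zetaC (1 : ClassGroup (𝓞 T)) s| ≤ B := by
  classical
  have hfin : Finite (𝓞 T ⧸ m) := Ideal.finiteQuotientOfFreeOfNeBot m hm
  let _ : Fintype (𝓞 T ⧸ m) := Fintype.ofFinite _
  have hbm0 : b * m ≠ ⊥ := mul_ne_zero hb hm
  choose v hvb hv using exists_lift (m := m) hbm
  choose Bx hBx using fun x => shift gsBound T (b * m) hbm0 (v x)
  obtain ⟨B', hB'⟩ := zetaCDiff zetaPole (unfold zetaPole) (shift gsBound) T (cls (b * m))⁻¹ 1
  let R : Finset (𝓞 T ⧸ m) := (goodRes m Φ).toFinset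
  have hcard : (Nat.card (goodRes m Φ) : ℝ) = (R.card : ℝ) := by
    rw [Nat.card_eq_fintype_card, Set.toFinset_card]
  refine ⟨(R.card : ℝ) * B' + ((Ideal.absNorm b : ℕ) : ℝ) ^ 2 * ∑ x ∈ R, Bx x, fun s hs hs2 => ?_⟩
  let P : 𝓞 T → Prop := fun ξ => ξ ≠ 0 ∧ Ideal.Quotient.mk m ξ ∈ goodRes m Φ
  let Q : Ideal (𝓞 T) → Prop := fun I => IsCoprime I m ∧ Φ I = (Φ b)⁻¹
  have hPQ : ∀ (I : Ideal (𝓞 T)) (ξ : 𝓞 T), I ≠ ⊥ → Ideal.span {ξ} = I * b → (P ξ ↔ Q I) := by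
    intro I ξ hI hspan
    have hξ : ξ ≠ 0 := by
      rintro rfl
      apply mul_ne_zero hI hb
      rw [← hspan]
      simp
    simp only [P, Q]
    rw [mem_goodRes_iff hΦ hξ, hspan, IsCoprime.mul_left_iff]
    constructor
    · rintro ⟨-, ⟨h1, -⟩, h2⟩
      rw [hΦ.mul _ _ h1 hbm] at h2
      exact ⟨h1, mul_eq_one_iff_eq_inv.1 h2⟩
    · rintro ⟨h1, h2⟩
      refine ⟨hξ, ⟨h1, hbm⟩, ?_⟩
      rw [hΦ.mul _ _ h1 hbm]
      exact mul_eq_one_iff_eq_inv.2 h2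
  obtain ⟨-, hU⟩ := unfoldP b hb P Q hPQ s hs
  let f : 𝓞 T → ℝ := fun ξ => Gs T s (mixedEmbedding T (ξ : T))
  -- decomposition into residue classes
  have hdec : ∀ ξ : b, Set.indicator {ξ : b | P ξ} (fun ξ : b => f ξ) ξ =
      ∑ x ∈ R, Set.indicator {ξ : b | Ideal.Quotient.mk m (ξ : 𝓞 T) = Ideal.Quotient.mk m (v x)}
        (fun ξ : b => f ξ) ξ := by
    intro ξ
    simp only [Set.indicator_apply, Set.mem_ofPred_eq, hv]
    rw [Finset.sum_ite_eq]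
    by_cases hξ : (ξ : 𝓞 T) = 0
    · have : f ξ = 0 := by
        simp only [f, hξ]
        exact Gs_zero hs
      simp [this]
    · simp only [P, R, Set.mem_toFinset]
      simp [hξ]
  have hsumm : ∀ x ∈ R, Summable (Set.indicator
      {ξ : b | Ideal.Quotient.mk m (ξ : 𝓞 T) = Ideal.Quotient.mk m (v x)} (fun ξ : b => f ξ)) :=
    fun x _ => (tsum_coset hbm f (v x) (hvb x)).1 (hBx x s hs hs2).1
  have hU2 : ∑' ξ : b, Set.indicator {ξ : b | P ξ} (fun ξ : b => f ξ) ξ =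
      ∑ x ∈ R, ∑' η : (b * m : Ideal (𝓞 T)), f (v x + η) := by
    rw [tsum_congr hdec, Summable.tsum_finsetSum hsumm]
    exact Finset.sum_congr rfl fun x _ => (tsum_coset hbm f (v x) (hvb x)).2
  have hS0 := ((unfold zetaPole) T (b * m) hbm0 s hs).2
  set S0 : ℝ := ∑' ξ : (b * m : Ideal (𝓞 T)), Gs T s (mixedEmbedding T (ξ : 𝓞 T)) with hS0def
  have hE : |∑ x ∈ R, (∑' η : (b * m : Ideal (𝓞 T)), f (v x + η) - S0)| ≤ ∑ x ∈ R, Bx x :=
    (Finset.abs_sum_le_sum_abs _ _).trans (Finset.sum_le_sum fun x _ => (hBx x s hs hs2).2)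
  rw [hcard]
  refine final_arith (w := (Units.torsionOrder T : ℝ)) (Zc := zetaC (cls (b * m))⁻¹ s)
    (E := ∑ x ∈ R, (∑' η : (b * m : Ideal (𝓞 T)), f (v x + η) - S0)) ?_ (one_le_absNorm hb)
    (one_le_absNorm hm) hs hs2 (Nat.cast_nonneg _) ?_ (hB' s hs hs2) hE
  · exact_mod_cast Nat.one_le_iff_ne_zero.2 (torsionOrder_ne_zero T)
  · rw [← hU]
    change ∑' ξ : b, Set.indicator {ξ : b | P ξ} (fun ξ : b => f ξ) ξ = _
    rw [hU2, Finset.sum_sub_distrib, Finset.sum_const, nsmul_eq_mul, ← Nat.cast_mul, ← map_mul,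
      ← hS0]
    ring

/-! ### Decomposition into ideal classes -/

/-- Partial zeta function of the ideals prime to `m` in the class `C` with `Φ = a`. -/
noncomputable def zetaCA (m : Ideal (𝓞 T)) (Φ : Ideal (𝓞 T) → A) (C : ClassGroup (𝓞 T)) (a : A)
    (s : ℝ) : ℝ :=
  ∑' I : {I : Ideal (𝓞 T) // I ≠ ⊥ ∧ cls I = C ∧ (IsCoprime I m ∧ Φ I = a)},
    ((Ideal.absNorm I.1 : ℕ) : ℝ) ^ (-s)

/-- There is an ideal prime to `m` in the class `C` with `Φ = a`. -/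
def NonemptyCA (m : Ideal (𝓞 T)) (Φ : Ideal (𝓞 T) → A) (C : ClassGroup (𝓞 T)) (a : A) : Prop :=
  ∃ I : Ideal (𝓞 T), I ≠ ⊥ ∧ cls I = C ∧ (IsCoprime I m ∧ Φ I = a)

theorem exists_coprime_cls (hm : m ≠ ⊥) (C : ClassGroup (𝓞 T)) :
    ∃ b : Ideal (𝓞 T), b ≠ ⊥ ∧ IsCoprime b m ∧ cls b = C := by
  have hN : Ideal.absNorm m ≠ 0 := by rwa [Ne, Ideal.absNorm_eq_zero_iff]
  obtain ⟨I, hcop, hI⟩ := moving T (Ideal.absNorm m) hN C
  have hIm : IsCoprime I m := by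
    rw [Ideal.isCoprime_iff_exists]
    have h1 : IsCoprime ((Ideal.absNorm I : ℕ) : ℤ) ((Ideal.absNorm m : ℕ) : ℤ) :=
      Nat.isCoprime_iff_coprime.2 hcop
    obtain ⟨x, y, hxy⟩ := h1
    refine ⟨(x : 𝓞 T) * (Ideal.absNorm I : 𝓞 T), I.mul_mem_left _ (Ideal.absNorm_mem I),
      (y : 𝓞 T) * (Ideal.absNorm m : 𝓞 T), m.mul_mem_left _ (Ideal.absNorm_mem m), ?_⟩
    have := congrArg (Int.cast : ℤ → 𝓞 T) hxy
    push_cast at this
    exact this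
  by_cases hI0 : I = ⊥
  · subst hI0
    have htop : m = ⊤ := by
      have := Ideal.isCoprime_iff_sup_eq.1 hIm
      simpa using this
    refine ⟨⊤, top_ne_bot, by rw [htop, Ideal.isCoprime_iff_sup_eq, sup_top_eq], ?_⟩
    rw [← hI, capi_cls_top]
    unfold cls
    rw [dif_neg]
    intro h
    exact (nonZeroDivisors.ne_zero h) rfl
  · exact ⟨I, hI0, hIm, hI⟩

theorem exists_b (hm : m ≠ ⊥) (hΦ : IsClassMap m Φ) {C : ClassGroup (𝓞 T)} {a : A}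
    (h : NonemptyCA m Φ C a) :
    ∃ b : Ideal (𝓞 T), b ≠ ⊥ ∧ IsCoprime b m ∧ C = (cls b)⁻¹ ∧ a = (Φ b)⁻¹ := by
  obtain ⟨I, hI0, hIC, hIm, hIa⟩ := h
  obtain ⟨b₀, hb₀, hb₀m, hb₀C⟩ := exists_coprime_cls hm C⁻¹
  obtain ⟨ξ, hξ0, hξ⟩ := unf_exists_gen hI0 hb₀ (by rw [hIC, hb₀C, inv_inv])
  have hξm : IsCoprime (Ideal.span {ξ}) m := by
    rw [hξ]
    exact IsCoprime.mul_left hIm hb₀m
  obtain ⟨y, hy0, hy⟩ := exists_inv hξm
  have hym : IsCoprime (Ideal.span {y}) m :=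
    isCoprime_of_mul_sub_one_mem (y := ξ) (by rwa [mul_comm])
  have hy0' : Ideal.span {y} ≠ ⊥ := by rwa [Ne, Ideal.span_singleton_eq_bot]
  have hbm : IsCoprime (b₀ * Ideal.span {y}) m := IsCoprime.mul_left hb₀m hym
  refine ⟨b₀ * Ideal.span {y}, mul_ne_zero hb₀ hy0', hbm, ?_, ?_⟩
  · have h1 : cls (Ideal.span {y}) = 1 := (unf_cls_eq_one_iff hy0').2 ⟨y, rfl⟩
    rw [unf_cls_mul hb₀ hy0', h1, mul_one, hb₀C, inv_inv]
  · have h1 := hΦ.princ (y * ξ) (mul_ne_zero hy0 hξ0) hy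
    have h2 : Ideal.span {y * ξ} = I * (b₀ * Ideal.span {y}) := by
      rw [← Ideal.span_singleton_mul_span_singleton, hξ]
      ring
    rw [h2, hΦ.mul _ _ hIm hbm, hIa] at h1
    exact mul_eq_one_iff_eq_inv.1 h1

open Classical in
theorem zetaCA_bound (hm : m ≠ ⊥) (hΦ : IsClassMap m Φ) (C : ClassGroup (𝓞 T)) (a : A) :
    ∃ B : ℝ, ∀ s : ℝ, 1 < s → s ≤ 2 →
      |zetaCA m Φ C a s - (if NonemptyCA m Φ C a then 1 else 0) *
        ((Nat.card (goodRes m Φ) : ℝ) * ((Ideal.absNorm m : ℕ) : ℝ) ^ (-s) *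
          zetaC (1 : ClassGroup (𝓞 T)) s)| ≤ B := by
  by_cases h : NonemptyCA m Φ C a
  · obtain ⟨b, hb, hbm, rfl, rfl⟩ := exists_b hm hΦ h
    obtain ⟨B, hB⟩ := main_b hm hΦ b hb hbm
    refine ⟨B, fun s hs hs2 => ?_⟩
    rw [if_pos h, one_mul]
    exact hB s hs hs2
  · refine ⟨0, fun s _ _ => ?_⟩
    have : IsEmpty {I : Ideal (𝓞 T) // I ≠ ⊥ ∧ cls I = C ∧ (IsCoprime I m ∧ Φ I = a)} :=
      ⟨fun I => h ⟨I.1, I.2⟩⟩
    rw [if_neg h, zero_mul, sub_zero, zetaCA, tsum_empty, abs_zero]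

theorem zetaRay_eq_sum (a : A) {s : ℝ} (hs : 1 < s) :
    zetaRay m Φ a s = ∑ C : ClassGroup (𝓞 T), zetaCA m Φ C a s := by
  classical
  let f : Ideal (𝓞 T) → ℝ := fun I => ((Ideal.absNorm I : ℕ) : ℝ) ^ (-s)
  have h0 : Summable (Set.indicator {I : Ideal (𝓞 T) | I ≠ ⊥} f) :=
    summable_subtype_iff_indicator.1 ((zetaPole T).1 s hs)
  have hf : ∀ I, 0 ≤ f I := fun I => Real.rpow_nonneg (Nat.cast_nonneg _) _
  have hsumm : ∀ C ∈ (Finset.univ : Finset (ClassGroup (𝓞 T))), Summable (Set.indicator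
      {I : Ideal (𝓞 T) | I ≠ ⊥ ∧ cls I = C ∧ (IsCoprime I m ∧ Φ I = a)} f) := by
    intro C _
    refine Summable.of_nonneg_of_le (fun I => Set.indicator_nonneg (fun I _ => hf I) I)
      (fun I => ?_) h0
    exact Set.indicator_le_indicator_of_subset (fun I hI => hI.1) hf I
  have h1 : zetaRay m Φ a s =
      ∑' I, Set.indicator {I : Ideal (𝓞 T) | I ≠ ⊥ ∧ IsCoprime I m ∧ Φ I = a} f I :=
    tsum_subtype {I : Ideal (𝓞 T) | I ≠ ⊥ ∧ IsCoprime I m ∧ Φ I = a} f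
  have h2 : ∀ C, zetaCA m Φ C a s = ∑' I, Set.indicator
      {I : Ideal (𝓞 T) | I ≠ ⊥ ∧ cls I = C ∧ (IsCoprime I m ∧ Φ I = a)} f I := fun C =>
    tsum_subtype {I : Ideal (𝓞 T) | I ≠ ⊥ ∧ cls I = C ∧ (IsCoprime I m ∧ Φ I = a)} f
  simp only [h1, h2]
  rw [← Summable.tsum_finsetSum hsumm]
  refine tsum_congr fun I => ?_
  simp only [Set.indicator_apply, Set.mem_ofPred_eq]
  by_cases hI : I ≠ ⊥ ∧ IsCoprime I m ∧ Φ I = a
  · rw [if_pos hI]
    have : ∀ C : ClassGroup (𝓞 T), (I ≠ ⊥ ∧ cls I = C ∧ (IsCoprime I m ∧ Φ I = a)) ↔ cls I = C :=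
      fun C => ⟨fun h => h.2.1, fun h => ⟨hI.1, h, hI.2⟩⟩
    simp only [this]
    rw [Finset.sum_ite_eq]
    simp
  · rw [if_neg hI]
    symm
    apply Finset.sum_eq_zero
    intro C _
    rw [if_neg]
    exact fun h => hI ⟨h.1, h.2.2⟩

open Classical in
theorem count_le (hΦ : IsClassMap m Φ) (a a' : A) :
    (∑ C : ClassGroup (𝓞 T), if NonemptyCA m Φ C a then (1 : ℝ) else 0) ≤
      ∑ C : ClassGroup (𝓞 T), if NonemptyCA m Φ C a' then (1 : ℝ) else 0 := by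
  rw [Finset.sum_boole, Finset.sum_boole]
  obtain ⟨c, hc0, hcm, hc⟩ := hΦ.surj (a' * a⁻¹)
  have : (Finset.univ.filter fun C : ClassGroup (𝓞 T) => NonemptyCA m Φ C a).card ≤
      (Finset.univ.filter fun C : ClassGroup (𝓞 T) => NonemptyCA m Φ C a').card := by
    apply Finset.card_le_card_of_injOn (fun C => C * cls c)
    · intro C hC
      simp only [Finset.coe_filter, Finset.mem_univ, true_and, Set.mem_ofPred_eq] at hC ⊢
      obtain ⟨I, hI0, hIC, hIm, hIa⟩ := hC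
      refine ⟨I * c, mul_ne_zero hI0 hc0, ?_, IsCoprime.mul_left hIm hcm, ?_⟩
      · rw [unf_cls_mul hI0 hc0, hIC]
      · rw [hΦ.mul _ _ hIm hcm, hIa, hc]
        simp
    · intro C _ C' _ h
      exact mul_right_cancel h
  exact_mod_cast this

end ZRD

open ZRD in
theorem zetaRayDiff : Stmt_ZetaRayDiff := by
  classical
  intro T _ _ m hm A _ _ Φ hΦ a a'
  choose B hB using fun (C : ClassGroup (𝓞 T)) (a : A) => zetaCA_bound hm hΦ C a
  refine ⟨∑ C, B C a + ∑ C, B C a', fun s hs hs2 => ?_⟩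
  set M : ℝ := (Nat.card (goodRes m Φ) : ℝ) * ((Ideal.absNorm m : ℕ) : ℝ) ^ (-s) *
          zetaC (1 : ClassGroup (𝓞 T)) s with hM
  have hcount : (∑ C : ClassGroup (𝓞 T), if NonemptyCA m Φ C a then (1 : ℝ) else 0) =
      ∑ C : ClassGroup (𝓞 T), if NonemptyCA m Φ C a' then (1 : ℝ) else 0 :=
    le_antisymm (count_le hΦ a a') (count_le hΦ a' a)
  have key : zetaRay m Φ a s - zetaRay m Φ a' s =
      ∑ C, (zetaCA m Φ C a s - (if NonemptyCA m Φ C a then 1 else 0) * M) -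
      ∑ C, (zetaCA m Φ C a' s - (if NonemptyCA m Φ C a' then 1 else 0) * M) := by
    rw [zetaRay_eq_sum a hs, zetaRay_eq_sum a' hs, Finset.sum_sub_distrib, Finset.sum_sub_distrib,
      ← Finset.sum_mul, ← Finset.sum_mul, hcount]
    ring
  rw [key]
  refine (abs_sub _ _).trans (add_le_add ?_ ?_)
  · exact (Finset.abs_sum_le_sum_abs _ _).trans (Finset.sum_le_sum fun C _ => hB C a s hs hs2)
  · exact (Finset.abs_sum_le_sum_abs _ _).trans (Finset.sum_le_sum fun C _ => hB C a' s hs hs2)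

end Fermat.Agent.CFT.Ray
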